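import Fermat.Agent.S48.ModL.Genus.DiaG

/-!
# S48 / MODL / Genus, block [G2], modular half, part 2

`F₁ = FN (M²)` (function field of `X₀(M²)` over `Qbar`), `F₂ = (lvlY M hM).FK Kb`.

* the fixed field of `CY` is `F₁`; `finrank F₁ F₂ = Nat.card CY`;
* `exists_kummer_basis` : a basis `R i` of `F₂ / F₁` with `R i ^ r = a i ∈ F₁`, `div (a i) = r E i`.
-/

set_option autoImplicit false
set_option linter.unusedSectionVars false
set_option linter.style.haveILetI false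
set_option synthInstance.maxHeartbeats 400000

open UpperHalfPlane hiding I
open Function ModularCurve CongruenceSubgroup AlgebraicCurve
open scoped Manifold MatrixGroups
open Fermat.Agent.S24 Fermat.Agent.GAL

namespace Fermat.Agent.S48.ModL.Genus

open Y F

noncomputable section

variable (M : ℕ) [NeZero M] (hM : 2 < M) (hM4 : ¬ M ∣ 4)

/-! ### the subfield `F₁` -/

section Sub

variable [Algebra (FN (M ^ 2)) ((lvlY M hM).FK Kb)]
  [IsScalarTower Kb (FN (M ^ 2)) ((lvlY M hM).FK Kb)]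
  (hcoe : ∀ z : FN (M ^ 2),
    ((algebraMap (FN (M ^ 2)) ((lvlY M hM).FK Kb) z : (lvlY M hM).FK Kb) : LaurentSeries Kb) = z)

include hcoe in
theorem algebraMap_jBar (d : ℕ) [NeZero d] (hd : d ∣ M ^ 2) :
    algebraMap (FN (M ^ 2)) ((lvlY M hM).FK Kb) (jBar (M ^ 2) d hd) =
      (lvlY M hM).genK Kb (idxJ M d hd) := by
  apply Subtype.ext
  rw [hcoe, coe_jBar]
  show _ = coeffEmb Kb (qExpand ℚ d jq)
  exact (coeffEmb_qExpand_jq _ _).symm

theorem th_genK_idxJ (d : ℕ) [NeZero d] (hd : d ∣ M ^ 2) :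
    th M hM ((lvlY M hM).genK Kb (idxJ M d hd)) = algebraMap Hol Mer (jdHol d) :=
  ((lvlY M hM).thetaK_genK iotaK.toRingHom _).trans rfl

include hcoe in
theorem th_algebraMap_FN (z : FN (M ^ 2)) :
    th M hM (algebraMap (FN (M ^ 2)) ((lvlY M hM).FK Kb) z) = ThetaMer (M ^ 2) z := by
  have : (th M hM).comp (algebraMap (FN (M ^ 2)) ((lvlY M hM).FK Kb)) = ThetaMer (M ^ 2) := by
    apply ringHom_ext_bar
    · intro a
      rw [RingHom.comp_apply, ← IsScalarTower.algebraMap_apply, Lvl.thetaK_algebraMap,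
        ThetaMer_algebraMap]
      rfl
    · intro d _ hd
      rw [RingHom.comp_apply, algebraMap_jBar M hM hcoe, th_genK_idxJ, ThetaMer_jBar]
  exact congrArg (fun φ : FN (M ^ 2) →+* Mer => φ z) this

include hcoe in
/-- the fixed field of the diamonds is `F₁`. -/
theorem fixed_iff (y : (lvlY M hM).FK Kb) :
    (∀ c, DY M hM hM4 c y = y) ↔
      y ∈ Set.range (algebraMap (FN (M ^ 2)) ((lvlY M hM).FK Kb)) := by
  constructor
  · intro h
    have h1 : ∀ s ∈ Gamma0 (M ^ 2), actMer s (th M hM y) = th M hM y := by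
      intro s hs
      rw [← th_diaG M hM hM4 ⟨s, hs⟩ y]
      exact congrArg _ (h ⟨diaG M hM hM4 ⟨s, hs⟩, ⟨s, hs⟩, rfl⟩)
    have h2 := coe_mem_full_of_fixed M hM y h1
    exact ⟨⟨(y : LaurentSeries Kb), h2⟩, Subtype.ext (hcoe _)⟩
  · rintro ⟨z, rfl⟩ ⟨_, s, rfl⟩
    apply (th M hM).injective
    show th M hM (diaG M hM hM4 s • _) = _
    rw [th_diaG]
    refine actMer_th_of_coe_mem_full M hM _ ?_ s s.2
    rw [hcoe]
    exact z.2

include hcoe in
theorem smul_algebraMap_of_mem_CY (c : GF M hM hM4) (hc : c ∈ CY M hM hM4) (z : FN (M ^ 2)) :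
    c • algebraMap (FN (M ^ 2)) ((lvlY M hM).FK Kb) z =
      algebraMap (FN (M ^ 2)) ((lvlY M hM).FK Kb) z :=
  (fixed_iff M hM hM4 hcoe _).mpr ⟨z, rfl⟩ ⟨c, hc⟩

include hcoe in
theorem finrank_eq_card_CY :
    Module.finrank (FN (M ^ 2)) ((lvlY M hM).FK Kb) = Nat.card (CY M hM hM4) := by
  rw [Nat.card_eq_fintype_card]
  exact finrank_eq_card_of_fixed (DY M hM hM4) (DY_injective M hM hM4) (fixed_iff M hM hM4 hcoe)

/-- `diaG`, with values in `CY`. -/
def toCY : Gamma0 (M ^ 2) →* CY M hM hM4 := (diaG M hM hM4).rangeRestrict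

theorem coe_toCY (s : Gamma0 (M ^ 2)) : (toCY M hM hM4 s : GF M hM hM4) = diaG M hM hM4 s := rfl

/-- the character of `Γ₀(M²)` attached to a character of the group of diamonds. -/
def chiT (χ : CY M hM hM4 →* Kbˣ) : Gamma0 (M ^ 2) →* ℂˣ :=
  (Units.map (iotaK.toRingHom : Kb →* ℂ)).comp (χ.comp (toCY M hM hM4))

theorem chiT_apply (χ : CY M hM hM4 →* Kbˣ) (γ : Gamma0 (M ^ 2)) :
    ((chiT M hM hM4 χ γ : ℂˣ) : ℂ) = iotaK ((χ (toCY M hM hM4 γ) : Kbˣ) : Kb) := rfl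

theorem isGoodChar_chiT (h23 : 2 ∣ M ∨ 3 ∣ M) (χ : CY M hM hM4 →* Kbˣ) :
    IsGoodChar (chiT M hM hM4 χ) := by
  intro γ hγ
  have h1 : toCY M hM hM4 γ = 1 :=
    Subtype.ext (diaG_eq_one M hM hM4 (mem_GY_of_small h23 γ.2 hγ))
  apply Units.ext
  rw [chiT_apply, h1, map_one, Units.val_one, map_one, Units.val_one]

theorem hasChar_chiT (χ : CY M hM hM4 →* Kbˣ) (R : (lvlY M hM).FK Kb)
    (hR : ∀ c, DY M hM hM4 c R = (χ c : Kb) • R) :
    GAL.HasChar (M ^ 2) (chiT M hM hM4 χ) (th M hM R) := by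
  intro g
  rw [← th_diaG M hM hM4 g R, chiT_apply]
  have h1 := hR (toCY M hM hM4 g)
  have h2 : diaG M hM hM4 g • R =
      algebraMap Kb ((lvlY M hM).FK Kb) (χ (toCY M hM hM4 g) : Kb) * R := by
    rw [← Algebra.smul_def]
    exact h1
  rw [h2, map_mul, Lvl.thetaK_algebraMap]
  rfl

include hcoe hM4 in
/-- **[G2]** : the Kummer basis of `F₂ / F₁`. -/
theorem exists_kummer_basis (h23 : 2 ∣ M ∨ 3 ∣ M) :
    ∃ (I : Type) (_ : Fintype I) (R : I → (lvlY M hM).FK Kb) (r : ℕ) (a : I → FN (M ^ 2))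
      (E : I → Divisor Kb (FN (M ^ 2))),
      LinearIndependent (FN (M ^ 2)) R ∧
      Fintype.card I = Module.finrank (FN (M ^ 2)) ((lvlY M hM).FK Kb) ∧ r ≠ 0 ∧
      (∀ i, R i ^ r = algebraMap (FN (M ^ 2)) ((lvlY M hM).FK Kb) (a i)) ∧
      ∀ (i : I) (v : Place Kb (FN (M ^ 2))), (r : ℤ) * E i v = v.ord (a i) := by
  classical
  have hexp : Monoid.exponent (CY M hM hM4) ≠ 0 := Monoid.exponent_ne_zero_of_finite
  haveI : NeZero ((Monoid.exponent (CY M hM hM4) : ℕ) : Kb) := ⟨Nat.cast_ne_zero.mpr hexp⟩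
  have hcard0 : Fintype.card (CY M hM hM4) ≠ 0 := Fintype.card_ne_zero
  obtain ⟨R, hR, hR0, hli, hcard, hpow⟩ :=
    exists_resolvent_basis (F₁ := FN (M ^ 2)) (DY M hM hM4) (DY_injective M hM hM4)
      (fixed_iff M hM hM4 hcoe) (Nat.cast_ne_zero.mpr hcard0) (Fintype.card (CY M hM hM4))
      (fun c => pow_card_eq_one)
  choose a ha using hpow
  haveI : NeZero (Fintype.card (CY M hM hM4)) := ⟨hcard0⟩
  haveI : NeZero (M ^ 2) := ⟨pow_ne_zero 2 (NeZero.ne M)⟩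
  have ha0 : ∀ χ, a χ ≠ 0 := by
    intro χ h0
    have := ha χ
    rw [h0, map_zero] at this
    exact hR0 χ (pow_eq_zero_iff hcard0 |>.mp this)
  have hdvd : ∀ χ (v : Place Kb (FN (M ^ 2))),
      ((Fintype.card (CY M hM hM4) : ℕ) : ℤ) ∣ v.ord (a χ) := by
    intro χ v
    refine GAL.dvd_ord_of_root (M ^ 2) _ (chiT M hM hM4 χ) (isGoodChar_chiT M hM hM4 h23 χ) (a χ)
      (th M hM (R χ)) (ha0 χ) ?_ (hasChar_chiT M hM hM4 χ (R χ) (hR χ)) v
    rw [← th_algebraMap_FN M hM hcoe, ← ha χ, map_pow]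
  choose E hE using fun χ =>
    GAL.exists_degZero_of_dvd_ord (M ^ 2) (Fintype.card (CY M hM hM4)) (a χ) (ha0 χ) (hdvd χ)
  have hfin : Finite (CY M hM hM4 →* Kbˣ) := by
    apply Nat.finite_of_card_ne_zero
    rw [hcard, finrank_eq_card_CY M hM hM4 hcoe, Nat.card_eq_fintype_card]
    exact hcard0
  refine ⟨CY M hM hM4 →* Kbˣ, Fintype.ofFinite _, R, Fintype.card (CY M hM hM4), a,
    fun χ => (E χ : Divisor Kb (FN (M ^ 2))), hli, ?_, hcard0, ha, fun χ v => (hE χ v).symm⟩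
  rw [← hcard]
  exact (@Nat.card_eq_fintype_card _ (Fintype.ofFinite _)).symm

end Sub

end

end Fermat.Agent.S48.ModL.Genus
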