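import Mathlib

/-! # S48 / MODL / Genus : Lagrange resolvents (abstract half of [G2]); Mathlib only.

`C` a finite abelian group acting faithfully on a field `F₂` by `K`-automorphisms, with fixed field
(the image of) `F₁`; `K` has enough roots of unity and `|C|` is invertible in `K`.  Then there is a
basis `R χ` (`χ : C →* Kˣ`) of `F₂ / F₁` with `c (R χ) = χ(c) R χ`, and `(R χ) ^ r ∈ F₁`. -/

set_option autoImplicit false

namespace Fermat.Agent.S48.ModL.Genus

open Module

variable {K F₁ F₂ : Type*} [Field K] [Field F₁] [Field F₂] [Algebra K F₁] [Algebra K F₂]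
  [Algebra F₁ F₂] [IsScalarTower K F₁ F₂]
  {C : Type*} [CommGroup C] [Fintype C] (D : C →* (F₂ ≃ₐ[K] F₂))

/-- the resolvent operator `y ↦ ∑_c χ(c)⁻¹ c(y)`. -/
noncomputable def resolv (χ : C →* Kˣ) (y : F₂) : F₂ := ∑ c : C, ((χ c)⁻¹ : Kˣ).1 • D c y

theorem apply_resolv (χ : C →* Kˣ) (y : F₂) (c : C) :
    D c (resolv D χ y) = (χ c : K) • resolv D χ y := by
  unfold resolv
  rw [map_sum, Finset.smul_sum]
  rw [← Equiv.sum_comp (Equiv.mulLeft c)
    (fun c' => ((χ c : Kˣ) : K) • (((χ c')⁻¹ : Kˣ) : K) • D c' y)]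
  refine Finset.sum_congr rfl fun c' _ => ?_
  rw [map_smul, Equiv.coe_mulLeft, map_mul, map_mul, smul_smul]
  congr 1
  rw [mul_inv, ← Units.val_mul, mul_inv_cancel_left]

theorem exists_resolv_ne_zero (hD : Function.Injective D) (χ : C →* Kˣ) :
    ∃ y, resolv D χ y ≠ 0 := by
  classical
  by_contra hcon
  push Not at hcon
  have hli := linearIndependent_monoidHom F₂ F₂
  let φ : C → (F₂ →* F₂) := fun c => ((D c : F₂ ≃ₐ[K] F₂) : F₂ →+* F₂)
  have hφ : Function.Injective φ := by
    intro c c' h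
    apply hD
    ext y
    exact congrArg (fun f : F₂ →* F₂ => f y) h
  have hli' := hli.comp φ hφ
  rw [Fintype.linearIndependent_iff] at hli'
  have := hli' (fun c => algebraMap K F₂ (((χ c)⁻¹ : Kˣ) : K)) (by
    funext y
    have := hcon y
    unfold resolv at this
    simp only [Finset.sum_apply, Pi.smul_apply, Function.comp, Pi.zero_apply]
    rw [← this]
    refine Finset.sum_congr rfl fun c _ => ?_
    rw [smul_eq_mul, Algebra.smul_def]
    rfl) 1
  rw [map_eq_zero] at this
  exact Units.ne_zero _ this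

open Classical in
theorem resolv_of_eigen (χ ψ : C →* Kˣ) {y : F₂}
    (hy : ∀ c, D c y = (ψ c : K) • y) :
    resolv D χ y = if χ = ψ then (Fintype.card C : K) • y else 0 := by
  classical
  unfold resolv
  simp_rw [hy, smul_smul, ← Finset.sum_smul]
  split_ifs with h
  · subst h
    congr 1
    simp
  · have h1 : (Units.coeHom K).comp (χ⁻¹ * ψ) ≠ 1 := by
      intro h2
      apply h
      ext c
      have := congrArg (fun f : C →* K => f c) h2
      simp only [MonoidHom.comp_apply, MonoidHom.mul_apply, MonoidHom.inv_apply, Units.coeHom_apply,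
        MonoidHom.one_apply, Units.val_eq_one] at this
      rw [inv_mul_eq_one] at this
      rw [this]
    have := sum_hom_units_eq_zero _ h1
    simp only [MonoidHom.comp_apply, MonoidHom.mul_apply, MonoidHom.inv_apply, Units.coeHom_apply,
      Units.val_mul] at this
    rw [this, zero_smul]

theorem resolv_smul (hfix : ∀ a : F₁, ∀ c, D c (algebraMap F₁ F₂ a) = algebraMap F₁ F₂ a)
    (χ : C →* Kˣ) (a : F₁) (y : F₂) : resolv D χ (a • y) = a • resolv D χ y := by
  unfold resolv
  rw [Finset.smul_sum]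
  refine Finset.sum_congr rfl fun c _ => ?_
  rw [Algebra.smul_def a y, map_mul, hfix, smul_comm, Algebra.smul_def a]

theorem resolv_sum {ι : Type*} (s : Finset ι) (χ : C →* Kˣ) (y : ι → F₂) :
    resolv D χ (∑ i ∈ s, y i) = ∑ i ∈ s, resolv D χ (y i) := by
  unfold resolv
  simp_rw [map_sum, Finset.smul_sum]
  rw [Finset.sum_comm]

theorem linearIndependent_of_eigen
    (hfix : ∀ a : F₁, ∀ c, D c (algebraMap F₁ F₂ a) = algebraMap F₁ F₂ a)
    (hcard : (Fintype.card C : K) ≠ 0) (R : (C →* Kˣ) → F₂)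
    (hR : ∀ χ c, D c (R χ) = (χ c : K) • R χ) (hR0 : ∀ χ, R χ ≠ 0) :
    LinearIndependent F₁ R := by
  classical
  rw [linearIndependent_iff']
  intro s g hg χ hχ
  have h1 := congrArg (resolv D χ) hg
  rw [resolv_sum] at h1
  simp_rw [resolv_smul D hfix, resolv_of_eigen D χ _ (hR _)] at h1
  have h0 : resolv D χ (0 : F₂) = 0 := by simp [resolv]
  rw [h0, Finset.sum_eq_single χ] at h1
  · rw [if_pos rfl, smul_eq_zero] at h1
    rcases h1 with h1 | h1
    · exact h1
    · rw [smul_eq_zero] at h1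
      rcases h1 with h1 | h1
      · exact absurd h1 hcard
      · exact absurd h1 (hR0 χ)
  · intro ψ _ hψ
    rw [if_neg (Ne.symm hψ), smul_zero]
  · intro h
    exact absurd hχ h

/-- the degree. -/
theorem finrank_eq_card_of_fixed (hD : Function.Injective D)
    (hfix : ∀ y : F₂, (∀ c, D c y = y) ↔ y ∈ Set.range (algebraMap F₁ F₂)) :
    finrank F₁ F₂ = Fintype.card C := by
  letI : MulSemiringAction C F₂ := MulSemiringAction.compHom F₂ D
  have hsm : ∀ (c : C) (y : F₂), c • y = D c y := fun _ _ => rfl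
  haveI : FaithfulSMul C F₂ := ⟨fun {c c'} h => hD (AlgEquiv.ext fun y => h y)⟩
  rw [← FixedPoints.finrank_eq_card C F₂]
  let i : F₁ ≃+* FixedPoints.subfield C F₂ :=
    RingEquiv.ofBijective
      ((algebraMap F₁ F₂).codRestrict (FixedPoints.subfield C F₂)
        (fun a c => (hfix _).mpr ⟨a, rfl⟩ c))
      ⟨fun a b h => (algebraMap F₁ F₂).injective (congrArg Subtype.val h),
        fun y => by
          obtain ⟨a, ha⟩ := (hfix y.1).mp (fun c => y.2 c)
          exact ⟨a, Subtype.ext ha⟩⟩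
  exact Algebra.finrank_eq_of_equiv_equiv i (RingEquiv.refl F₂) (by ext a; rfl)

/-- **Lagrange resolvents**. -/
theorem exists_resolvent_basis (hD : Function.Injective D)
    (hfix : ∀ y : F₂, (∀ c, D c y = y) ↔ y ∈ Set.range (algebraMap F₁ F₂))
    [HasEnoughRootsOfUnity K (Monoid.exponent C)] (hcard : (Fintype.card C : K) ≠ 0)
    (r : ℕ) (hr : ∀ c : C, c ^ r = 1) :
    ∃ R : (C →* Kˣ) → F₂, (∀ χ c, D c (R χ) = (χ c : K) • R χ) ∧ (∀ χ, R χ ≠ 0) ∧
      LinearIndependent F₁ R ∧ Nat.card (C →* Kˣ) = finrank F₁ F₂ ∧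
      ∀ χ, ∃ a : F₁, R χ ^ r = algebraMap F₁ F₂ a := by
  choose y hy using exists_resolv_ne_zero D hD
  refine ⟨fun χ => resolv D χ (y χ), fun χ c => apply_resolv D χ _ c, hy, ?_, ?_, ?_⟩
  · exact linearIndependent_of_eigen D (fun a c => (hfix _).mpr ⟨a, rfl⟩ c) hcard _
      (fun χ c => apply_resolv D χ _ c) hy
  · rw [finrank_eq_card_of_fixed D hD hfix, CommGroup.card_monoidHom_of_hasEnoughRootsOfUnity,
      Nat.card_eq_fintype_card]
  · intro χ
    obtain ⟨a, ha⟩ := (hfix (resolv D χ (y χ) ^ r)).mp (fun c => by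
      rw [map_pow, apply_resolv, smul_pow, ← Units.val_pow_eq_pow_val, ← map_pow, hr, map_one,
        Units.val_one, one_smul])
    exact ⟨a, ha.symm⟩

end Fermat.Agent.S48.ModL.Genus
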