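import Fermat.Agent.S48.ModL.F.Main
import Fermat.Agent.S48.ModL.Genus.ResolventAbs
import Fermat.Agent.GAL.Sup.K1

/-!
# S48 / MODL / Genus, block [G2], modular half, part 1: the group of diamonds

`F₁ = FN (M²)` (function field of `X₀(M²)` over `Qbar`), `F₂ = (lvlY M hM).FK Kb`.

* `diaG : Γ₀(M²) →* GF`, `th (diaG s • x) = actMer s (th x)`; `CY = diaG.range` (commutative);
* the fixed field of `CY` is `F₁`; `finrank F₁ F₂ = Nat.card CY`;
* `exists_kummer_basis` : a basis `R i` of `F₂ / F₁` with `R i ^ r = a i ∈ F₁`, `div (a i) = r E i`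
  (the covering `Y → X₀(M²)` is unramified, because `Γ₀(M²)` has no elliptic elements
  (`2 ∣ M` or `3 ∣ M`) and its parabolic elements lie in `GY M`).
-/

set_option autoImplicit false
set_option linter.unusedSectionVars false
set_option linter.style.haveILetI false

open UpperHalfPlane hiding I
open Function ModularCurve CongruenceSubgroup AlgebraicCurve
open scoped Manifold MatrixGroups
open Fermat.Agent.S24 Fermat.Agent.GAL

namespace Fermat.Agent.S48.ModL.Genus

open Y F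

noncomputable section

/-! ### small elements of `Γ₀(M²)` -/

theorem mem_GY_of_small {M : ℕ} (h23 : 2 ∣ M ∨ 3 ∣ M) {γ : SL(2, ℤ)} (hγ : γ ∈ Gamma0 (M ^ 2))
    (hs : |γ 0 0 + γ 1 1| ≤ 2) : γ ∈ GY M := by
  refine ⟨hγ, ?_⟩
  have hc : ((M ^ 2 : ℕ) : ℤ) ∣ γ 1 0 :=
    (ZMod.intCast_zmod_eq_zero_iff_dvd _ _).mp (Gamma0_mem.mp hγ)
  have hdet := γ.det_coe
  rw [Matrix.det_fin_two] at hdet
  set a := γ 0 0
  set b := γ 0 1
  set c := γ 1 0
  set d := γ 1 1
  have hq : ((M : ℤ) ^ 2) ∣ d ^ 2 - (a + d) * d + 1 := by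
    have : d ^ 2 - (a + d) * d + 1 = -(b * c) := by linear_combination -hdet
    rw [this]
    push_cast at hc
    exact (hc.mul_left b).neg_right
  obtain ⟨h1, h2⟩ := abs_le.mp hs
  have key : ∀ t : ℤ, a + d = t → (t = 0 ∨ t = 1 ∨ t = -1) → False := by
    intro t ht htt
    rw [ht] at hq
    rcases h23 with h | h
    · have h4 : (4 : ℤ) ∣ d ^ 2 - t * d + 1 := by
        refine dvd_trans ?_ hq
        have : (2 : ℤ) ∣ M := by exact_mod_cast h
        have := pow_dvd_pow_of_dvd this 2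
        norm_num at this
        exact this
      have h5 := (ZMod.intCast_zmod_eq_zero_iff_dvd _ 4).mpr h4
      push_cast at h5
      generalize ((d : ℤ) : ZMod 4) = x at h5
      rcases htt with rfl | rfl | rfl <;> revert x <;> decide
    · have h9 : (9 : ℤ) ∣ d ^ 2 - t * d + 1 := by
        refine dvd_trans ?_ hq
        have : (3 : ℤ) ∣ M := by exact_mod_cast h
        have := pow_dvd_pow_of_dvd this 2
        norm_num at this
        exact this
      have h5 := (ZMod.intCast_zmod_eq_zero_iff_dvd _ 9).mpr h9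
      push_cast at h5
      generalize ((d : ℤ) : ZMod 9) = x at h5
      rcases htt with rfl | rfl | rfl <;> revert x <;> decide
  have hcases : a + d = 2 ∨ a + d = -2 := by
    by_contra hcon
    push Not at hcon
    have : a + d = 0 ∨ a + d = 1 ∨ a + d = -1 := by omega
    exact key (a + d) rfl this
  rcases hcases with h | h
  · left
    rw [h] at hq
    have h3 : (M : ℤ) ^ 2 ∣ (d - 1) ^ 2 := by
      have : (d - 1) ^ 2 = d ^ 2 - 2 * d + 1 := by ring
      rw [this]; exact hq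
    have h4 : (M : ℤ) ∣ d - 1 := (Int.pow_dvd_pow_iff two_ne_zero).mp h3
    have h5 := (ZMod.intCast_zmod_eq_zero_iff_dvd _ M).mpr h4
    push_cast at h5
    exact sub_eq_zero.mp h5
  · right
    rw [h] at hq
    have h3 : (M : ℤ) ^ 2 ∣ (d + 1) ^ 2 := by
      have : (d + 1) ^ 2 = d ^ 2 - (-2) * d + 1 := by ring
      rw [this]; exact hq
    have h4 : (M : ℤ) ∣ d + 1 := (Int.pow_dvd_pow_iff two_ne_zero).mp h3
    have h5 := (ZMod.intCast_zmod_eq_zero_iff_dvd _ M).mpr h4
    push_cast at h5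
    exact eq_neg_of_add_eq_zero_left h5

theorem commutator_mem_GY {M : ℕ} {s t : SL(2, ℤ)} (hs : s ∈ Gamma0 (M ^ 2))
    (ht : t ∈ Gamma0 (M ^ 2)) : s * t * s⁻¹ * t⁻¹ ∈ GY M := by
  have hs' := Gamma0_sq_le M hs
  have ht' := Gamma0_sq_le M ht
  refine ⟨mul_mem (mul_mem (mul_mem hs ht) (inv_mem hs)) (inv_mem ht), Or.inl ?_⟩
  rw [Gamma0_mul_entry (mul_mem (mul_mem hs' ht') (inv_mem hs')),
    Gamma0_mul_entry (mul_mem hs' ht'), Gamma0_mul_entry hs']
  have h1 := Gamma0_entry_mul_inv hs'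
  have h2 := Gamma0_entry_mul_inv ht'
  linear_combination ((t 1 1 : ℤ) : ZMod M) * ((t⁻¹ 1 1 : ℤ) : ZMod M) * h1 + h2

variable (M : ℕ) [NeZero M] (hM : 2 < M) (hM4 : ¬ M ∣ 4)

/-! ### the diamonds -/

/-- `δ s δ⁻¹`. -/
def cjS (s : Gamma0 (M ^ 2)) : SL(2, ℤ) := (exists_conj_of_mem_Gamma0_sq M s s.2).choose

theorem cjS_spec (s : Gamma0 (M ^ 2)) (τ : ℍ) :
    scal M ((s : SL(2, ℤ)) • τ) = cjS M s • scal M τ :=
  (exists_conj_of_mem_Gamma0_sq M s s.2).choose_spec.2.2 τ

theorem th_rho_cjS (s : Gamma0 (M ^ 2)) (x : (lvlY M hM).FK Kb) :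
    th M hM (rho M hM hM4 (cjS M s) x) = actMer (s : SL(2, ℤ)) (th M hM x) :=
  th_rho_of_conj M hM hM4 (cjS_spec M s) x

/-- the diamond operators, as a homomorphism `Γ₀(M²) → GF`. -/
def diaG : Gamma0 (M ^ 2) →* GF M hM hM4 where
  toFun s := toGF M hM hM4 (cjS M s)
  map_one' := by
    apply Subtype.ext
    apply AlgEquiv.ext
    intro x
    apply (th M hM).injective
    show th M hM (rho M hM hM4 (cjS M 1) x) = th M hM x
    rw [th_rho_cjS, OneMemClass.coe_one, map_one, AlgEquiv.one_apply]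
  map_mul' s t := by
    apply Subtype.ext
    apply AlgEquiv.ext
    intro x
    apply (th M hM).injective
    show th M hM (rho M hM hM4 (cjS M (s * t)) x) =
      th M hM (rho M hM hM4 (cjS M s) (rho M hM hM4 (cjS M t) x))
    rw [th_rho_cjS, th_rho_cjS, th_rho_cjS, Subgroup.coe_mul, map_mul, AlgEquiv.mul_apply]

theorem th_diaG (s : Gamma0 (M ^ 2)) (x : (lvlY M hM).FK Kb) :
    th M hM (diaG M hM hM4 s • x) = actMer (s : SL(2, ℤ)) (th M hM x) :=
  th_rho_cjS M hM hM4 s x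

theorem diaG_eq_one {s : Gamma0 (M ^ 2)} (hs : (s : SL(2, ℤ)) ∈ GY M) : diaG M hM hM4 s = 1 := by
  apply Subtype.ext
  apply AlgEquiv.ext
  intro x
  apply (th M hM).injective
  show th M hM (diaG M hM hM4 s • x) = th M hM x
  rw [th_diaG]
  exact (lvlY M hM).actMer_thetaK _ hs x

theorem diaG_comm (s t : Gamma0 (M ^ 2)) :
    diaG M hM hM4 s * diaG M hM hM4 t = diaG M hM hM4 t * diaG M hM hM4 s := by
  have h := diaG_eq_one M hM hM4 (s := s * t * s⁻¹ * t⁻¹) (commutator_mem_GY s.2 t.2)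
  rw [map_mul, map_mul, map_mul, map_inv, map_inv] at h
  rw [mul_inv_eq_one, mul_inv_eq_iff_eq_mul] at h
  exact h

/-- the group of diamonds. -/
def CY : Subgroup (GF M hM hM4) := (diaG M hM hM4).range

instance commGroupCY : CommGroup (CY M hM hM4) :=
  { (inferInstance : Group (CY M hM hM4)) with
    mul_comm := by
      rintro ⟨_, s, rfl⟩ ⟨_, t, rfl⟩
      exact Subtype.ext (diaG_comm M hM hM4 s t) }

instance fintypeCY : Fintype (CY M hM hM4) := Fintype.ofFinite _

/-- the diamonds as automorphisms. -/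
def DY : CY M hM hM4 →* ((lvlY M hM).FK Kb ≃ₐ[Kb] (lvlY M hM).FK Kb) :=
  (GF M hM hM4).subtype.comp (CY M hM hM4).subtype

theorem DY_injective : Injective (DY M hM hM4) :=
  (Subtype.val_injective).comp Subtype.val_injective

theorem DY_apply (c : CY M hM hM4) (x : (lvlY M hM).FK Kb) :
    DY M hM hM4 c x = (c : GF M hM hM4) • x := rfl

end

end Fermat.Agent.S48.ModL.Genus
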