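import Fermat.Agent.RR.Hurwitz

/-!
# S48 / MODL, block [G] : abstract genus inequalities

* `gR_sub_one_le_of_kummer` (G1) : `F₁ ⊆ F₂` function fields over an algebraically closed field,
  `R i` a family of `[F₂ : F₁]` elements of `F₂`, linearly independent over `F₁`, with
  `R i ^ r ∈ F₁` and `r ∣ div (R i ^ r)`.  Then `g₂ - 1 ≤ [F₂ : F₁] (g₁ - 1)`.
* `mul_gR_sub_one_le` (G3) : Riemann-Hurwitz inequality `[F₂ : F₁] (g₁ - 1) ≤ g₂ - 1` in any
  characteristic (for a separating parameter `x ∈ F₁` of `F₂`).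
* `gR_le_of_reduction` : the comparison `g(F₂) ≤ g(Fb₂)`.
-/

set_option autoImplicit false
set_option linter.unusedSectionVars false
set_option linter.style.haveILetI false

open AlgebraicCurve KaehlerDifferential IntermediateField

namespace Fermat.Agent.S48.ModL

open Fermat.Agent Fermat.Agent.RED

section

variable {K F₁ F₂ : Type*} [Field K] [Field F₁] [Field F₂] [Algebra K F₁] [Algebra K F₂]
  [Algebra F₁ F₂] [IsScalarTower K F₁ F₂] [IsAlgClosed K]

/-- (G3) **Riemann-Hurwitz inequality** (any characteristic). -/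
theorem mul_gR_sub_one_le {x : F₁} (hx₁ : IsSepParam K x)
    (hx₂ : IsSepParam K (algebraMap F₁ F₂ x)) :
    (Module.finrank F₁ F₂ : ℤ) * (gR K F₁ - 1) ≤ gR K F₂ - 1 := by
  classical
  haveI := RR.finiteDimensional_of_isSepParam hx₂
  haveI : Algebra.IsIntegral F₁ F₂ := Algebra.IsIntegral.of_finite F₁ F₂
  haveI := hx₁.isFF1
  haveI := hx₂.isFF1
  haveI : HasPrincipalDivisors K F₂ := hx₂.hasPrincipalDivisors
  haveI := RR.fundamentalIdentity_of_isSepParam hx₁ hx₂
  have h1 := hx₁.finrank_kaehler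
  have h2 := hx₂.finrank_kaehler
  have hD1 := hx₁.D_ne_zero
  have hD2 := hx₂.D_ne_zero
  obtain ⟨W1, hW1⟩ := (RR.hasCanonicalDivisor h1).exists_divisor _ hD1
  obtain ⟨W2, hW2⟩ := (RR.hasCanonicalDivisor h2).exists_divisor _ hD2
  have dW1 := RR.degree_kaehler h1 hD1 hW1
  have dW2 := RR.degree_kaehler h2 hD2 hW2
  rw [← hx₁.gR_eq_genusFF] at dW1
  rw [← hx₂.gR_eq_genusFF] at dW2
  have key : Divisor.pullback F₂ W1 ≤ W2 := by
    intro w
    rw [Divisor.pullback_apply, hW1, hW2]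
    have hloc := RR.le_ordDifferential_algebraMap h1 h2 w hD2
    have he := w.ramificationIndex_pos (F := F₁)
    have : (1 : ℤ) ≤ w.ramificationIndex F₁ := by exact_mod_cast he
    linarith
  have hdeg := hx₂.degree_mono key
  rw [Divisor.degree_pullback, dW1, dW2] at hdeg
  linarith

/-- the order of a "Kummer generator" -/
theorem ord_of_pow_eq [Algebra.IsIntegral F₁ F₂] [HasPrincipalDivisors K F₂] {r : ℕ} (hr : r ≠ 0) {R : F₂} {a : F₁}
    (ha : R ^ r = algebraMap F₁ F₂ a) {E : Divisor K F₁}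
    (hE : ∀ v : Place K F₁, (r : ℤ) * E v = v.ord a) (w : Place K F₂) :
    w.ord R = Divisor.pullback F₂ E w := by
  have h1 : (r : ℤ) * w.ord R = w.ord (algebraMap F₁ F₂ a) := by
    rw [← ha, ← zpow_natCast, w.ord_zpow]
  rw [w.ord_restrict, ← hE] at h1
  rw [Divisor.pullback_apply]
  have hr' : (r : ℤ) ≠ 0 := by exact_mod_cast hr
  apply mul_left_cancel₀ hr'
  rw [h1]
  ring

/-- (G1) **the genus inequality for a Kummer basis**. -/
theorem gR_sub_one_le_of_kummer {x : F₁} (hx₁ : IsSepParam K x)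
    (hx₂ : IsSepParam K (algebraMap F₁ F₂ x)) {ι : Type*} [Fintype ι] (R : ι → F₂)
    (hli : LinearIndependent F₁ R) (hcard : Fintype.card ι = Module.finrank F₁ F₂)
    {r : ℕ} (hr : r ≠ 0) (a : ι → F₁) (ha : ∀ i, R i ^ r = algebraMap F₁ F₂ (a i))
    (E : ι → Divisor K F₁) (hE : ∀ (i : ι) (v : Place K F₁), (r : ℤ) * E i v = v.ord (a i)) :
    gR K F₂ - 1 ≤ (Module.finrank F₁ F₂ : ℤ) * (gR K F₁ - 1) := by
  classical
  haveI := RR.finiteDimensional_of_isSepParam hx₂
  haveI : Algebra.IsIntegral F₁ F₂ := Algebra.IsIntegral.of_finite F₁ F₂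
  haveI : HasPrincipalDivisors K F₂ := hx₂.hasPrincipalDivisors
  haveI := RR.fundamentalIdentity_of_isSepParam hx₁ hx₂
  have hn : 0 < Module.finrank F₁ F₂ := Module.finrank_pos
  have hr' : (r : ℤ) ≠ 0 := by exact_mod_cast hr
  -- the divisors `E i` have degree `0`
  have hEdeg : ∀ i, Divisor.degree (E i) = 0 := by
    intro i
    have h1 : r • E i = dv K (a i) := by
      ext v
      rw [Finsupp.smul_apply, hx₁.dv_apply, ← hE, nsmul_eq_mul]
    have h2 := congrArg Divisor.degree h1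
    rw [map_nsmul, hx₁.degree_dv, nsmul_eq_mul] at h2
    exact (mul_eq_zero.1 h2).resolve_left hr'
  -- a divisor of large degree
  obtain ⟨c, hc⟩ := hx₂.exists_riemann
  have hP := hx₁.degree_polarDiv_pos
  obtain ⟨N, hN⟩ : ∃ N : ℕ, c ≤ N := ⟨c.toNat, Int.self_le_toNat c⟩
  set D : Divisor K F₁ := N • polarDiv K x with hD
  have hDdeg : (N : ℤ) ≤ Divisor.degree D := by
    rw [hD, map_nsmul, nsmul_eq_mul]
    nlinarith
  have hpull : Divisor.degree (Divisor.pullback F₂ D)
      = (Module.finrank F₁ F₂ : ℤ) * Divisor.degree D := Divisor.degree_pullback D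
  have hbig : c ≤ Divisor.degree (Divisor.pullback F₂ D) := by
    rw [hpull]
    have : (1 : ℤ) ≤ Module.finrank F₁ F₂ := by exact_mod_cast hn
    nlinarith
  have hell := hc _ hbig
  -- the injection
  haveI : ∀ i, Module.Finite K (riemannRochSpace (D + E i)) := fun i => hx₁.finite_L _
  haveI : Module.Finite K (riemannRochSpace (Divisor.pullback F₂ D)) := hx₂.finite_L _
  have hmem : ∀ (i : ι) (u : F₁), u ∈ riemannRochSpace (D + E i) →
      R i * algebraMap F₁ F₂ u ∈ riemannRochSpace (Divisor.pullback F₂ D) := by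
    intro i u hu
    rcases eq_or_ne u 0 with rfl | hu0
    · rw [map_zero, mul_zero]
      exact Submodule.zero_mem _
    have hR0 : R i ≠ 0 := hli.ne_zero i
    have hu0' : algebraMap F₁ F₂ u ≠ 0 := by rwa [Ne, map_eq_zero]
    rw [mem_L_iff_of_ne_zero hu0] at hu
    rw [mem_L_iff_of_ne_zero (mul_ne_zero hR0 hu0')]
    intro w
    rw [w.ord_mul hR0 hu0', ord_of_pow_eq hr (ha i) (hE i) w, w.ord_restrict,
      Divisor.pullback_apply, Divisor.pullback_apply]
    have h1 := hu (w.restrict F₁)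
    rw [Finsupp.add_apply] at h1
    have he : (0 : ℤ) ≤ w.ramificationIndex F₁ := by positivity
    nlinarith
  let Φ : (∀ i, riemannRochSpace (D + E i)) →ₗ[K] riemannRochSpace (Divisor.pullback F₂ D) :=
    { toFun := fun u => ⟨∑ i, R i * algebraMap F₁ F₂ (u i : F₁),
        Submodule.sum_mem _ fun i _ => hmem i _ (u i).2⟩
      map_add' := fun u v => by
        apply Subtype.ext
        simp only [Pi.add_apply, Submodule.coe_add, map_add, mul_add, Finset.sum_add_distrib]
      map_smul' := fun b u => by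
        apply Subtype.ext
        simp only [Pi.smul_apply, Submodule.coe_smul, RingHom.id_apply, Finset.smul_sum]
        refine Finset.sum_congr rfl fun i _ => ?_
        rw [Algebra.smul_def b ((u i : F₁)), map_mul, ← IsScalarTower.algebraMap_apply,
          Algebra.smul_def]
        ring }
  have hΦ : Function.Injective Φ := by
    rw [injective_iff_map_eq_zero]
    intro u hu
    have h1 : ∑ i, (u i : F₁) • R i = 0 := by
      have := congrArg Subtype.val hu
      simp only [Φ, LinearMap.coe_mk, AddHom.coe_mk, ZeroMemClass.coe_zero] at this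
      rw [← this]
      refine Finset.sum_congr rfl fun i _ => ?_
      rw [Algebra.smul_def, mul_comm]
    have h2 := Fintype.linearIndependent_iff.1 hli _ h1
    funext i
    exact Subtype.ext (h2 i)
  have hle := LinearMap.finrank_le_finrank_of_injective hΦ
  rw [Module.finrank_pi_fintype] at hle
  have hsum : (Module.finrank F₁ F₂ : ℤ) * (Divisor.degree D + 1 - gR K F₁)
      ≤ ((∑ i, Module.finrank K (riemannRochSpace (D + E i)) : ℕ) : ℤ) := by
    push_cast
    rw [← hcard, ← nsmul_eq_mul, ← Finset.card_univ, ← Finset.sum_const]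
    refine Finset.sum_le_sum fun i _ => ?_
    have := hx₁.riemann_inequality (D + E i)
    rw [map_add, hEdeg, add_zero] at this
    exact this
  have hle' : ((∑ i, Module.finrank K (riemannRochSpace (D + E i)) : ℕ) : ℤ)
      ≤ (ell (Divisor.pullback F₂ D) : ℤ) := by exact_mod_cast hle
  rw [hell, hpull] at hle'
  nlinarith

end

/-- **the genus comparison**: characteristic `0` above (Kummer basis over `F₁`), any
characteristic below; the genus of `F₁` does not drop and the degrees agree. -/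
theorem gR_le_of_reduction {K F₁ F₂ k Fb₁ Fb₂ : Type*} [Field K] [Field F₁] [Field F₂]
    [Algebra K F₁] [Algebra K F₂] [Algebra F₁ F₂] [IsScalarTower K F₁ F₂] [IsAlgClosed K]
    [Field k] [Field Fb₁] [Field Fb₂] [Algebra k Fb₁] [Algebra k Fb₂] [Algebra Fb₁ Fb₂]
    [IsScalarTower k Fb₁ Fb₂] [IsAlgClosed k]
    {x : F₁} (hx₁ : IsSepParam K x) (hx₂ : IsSepParam K (algebraMap F₁ F₂ x))
    {t : Fb₁} (ht₁ : IsSepParam k t) (ht₂ : IsSepParam k (algebraMap Fb₁ Fb₂ t))
    {ι : Type*} [Fintype ι] (R : ι → F₂)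
    (hli : LinearIndependent F₁ R) (hcard : Fintype.card ι = Module.finrank F₁ F₂)
    {r : ℕ} (hr : r ≠ 0) (a : ι → F₁) (ha : ∀ i, R i ^ r = algebraMap F₁ F₂ (a i))
    (E : ι → Divisor K F₁) (hE : ∀ (i : ι) (v : Place K F₁), (r : ℤ) * E i v = v.ord (a i))
    (hg : gR K F₁ ≤ gR k Fb₁) (hdeg : Module.finrank F₁ F₂ = Module.finrank Fb₁ Fb₂) :
    gR K F₂ ≤ gR k Fb₂ := by
  have h1 := gR_sub_one_le_of_kummer hx₁ hx₂ R hli hcard hr a ha E hE
  have h2 := mul_gR_sub_one_le ht₁ ht₂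
  rw [← hdeg] at h2
  have h4 : (0 : ℤ) ≤ Module.finrank F₁ F₂ := by positivity
  nlinarith

/-- variant: only `[F₂ : F₁] ≤ [Fb₂ : Fb₁]` is known, but `1 ≤ g(F₁)`. -/
theorem gR_le_of_reduction' {K F₁ F₂ k Fb₁ Fb₂ : Type*} [Field K] [Field F₁] [Field F₂]
    [Algebra K F₁] [Algebra K F₂] [Algebra F₁ F₂] [IsScalarTower K F₁ F₂] [IsAlgClosed K]
    [Field k] [Field Fb₁] [Field Fb₂] [Algebra k Fb₁] [Algebra k Fb₂] [Algebra Fb₁ Fb₂]
    [IsScalarTower k Fb₁ Fb₂] [IsAlgClosed k]
    {x : F₁} (hx₁ : IsSepParam K x) (hx₂ : IsSepParam K (algebraMap F₁ F₂ x))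
    {t : Fb₁} (ht₁ : IsSepParam k t) (ht₂ : IsSepParam k (algebraMap Fb₁ Fb₂ t))
    {ι : Type*} [Fintype ι] (R : ι → F₂)
    (hli : LinearIndependent F₁ R) (hcard : Fintype.card ι = Module.finrank F₁ F₂)
    {r : ℕ} (hr : r ≠ 0) (a : ι → F₁) (ha : ∀ i, R i ^ r = algebraMap F₁ F₂ (a i))
    (E : ι → Divisor K F₁) (hE : ∀ (i : ι) (v : Place K F₁), (r : ℤ) * E i v = v.ord (a i))
    (hg : gR K F₁ ≤ gR k Fb₁) (hdeg : Module.finrank F₁ F₂ ≤ Module.finrank Fb₁ Fb₂)
    (hg1 : 1 ≤ gR K F₁) :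
    gR K F₂ ≤ gR k Fb₂ := by
  have h1 := gR_sub_one_le_of_kummer hx₁ hx₂ R hli hcard hr a ha E hE
  have h2 := mul_gR_sub_one_le ht₁ ht₂
  have h3 : (Module.finrank F₁ F₂ : ℤ) ≤ Module.finrank Fb₁ Fb₂ := by exact_mod_cast hdeg
  have h4 : (0 : ℤ) ≤ Module.finrank F₁ F₂ := by positivity
  nlinarith

end Fermat.Agent.S48.ModL
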