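import Fermat.Agent.S48.ModL.GY

/-!
# S48 / MODL / [G2] : two matrix lemmas (owner helper72)

* `eq_one_or_neg_one_of_fix` : `Γ₀(M²)` has no elliptic elements if `2 ∣ M` or `3 ∣ M`;
* `mem_GY_of_parabolic` : the parabolic elements of `Γ₀(M²)` lie in `GY M`.

So `X_Y(M) → X₀(M²)` is unramified.
-/

set_option autoImplicit false

open UpperHalfPlane hiding I
open CongruenceSubgroup
open scoped MatrixGroups

namespace Fermat.Agent.S48.ModL

/-- an element of `SL(2, ℤ)` with a fixed point in the upper half plane is scalar or has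
`|trace| ≤ 1`. -/
theorem fix_cases (γ : SL(2, ℤ)) (τ : ℍ) (h : γ • τ = τ) :
    (γ 1 0 = 0 ∧ γ 0 1 = 0 ∧ γ 0 0 = γ 1 1) ∨ |γ 0 0 + γ 1 1| ≤ 1 := by
  have h1 := congrArg (fun z : ℍ => (z : ℂ)) h
  simp only [coe_specialLinearGroup_apply] at h1
  have hden : ((algebraMap ℤ ℝ (γ 1 0) : ℝ) : ℂ) * τ + ((algebraMap ℤ ℝ (γ 1 1) : ℝ) : ℂ) ≠ 0 := by
    have := denom_ne_zero (Matrix.SpecialLinearGroup.mapGL ℝ γ) τ
    simpa [denom] using this
  rw [div_eq_iff hden] at h1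
  set a : ℝ := algebraMap ℤ ℝ (γ 0 0) with ha
  set b : ℝ := algebraMap ℤ ℝ (γ 0 1) with hb
  set c : ℝ := algebraMap ℤ ℝ (γ 1 0) with hc
  set d : ℝ := algebraMap ℤ ℝ (γ 1 1) with hd
  have hdet : a * d - b * c = 1 := by
    have := γ.det_coe
    rw [Matrix.det_fin_two] at this
    have h2 := congrArg (fun n : ℤ => (n : ℝ)) this
    simpa [ha, hb, hc, hd] using h2
  have hy : 0 < τ.im := τ.im_pos
  have hre := congrArg Complex.re h1
  have him := congrArg Complex.im h1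
  simp only [Complex.add_re, Complex.mul_re, Complex.ofReal_re, Complex.ofReal_im, zero_mul,
    sub_zero, Complex.add_im, Complex.mul_im, add_zero, coe_re, coe_im] at hre him
  set x : ℝ := τ.re
  set y : ℝ := τ.im
  have h3 : a - d = 2 * c * x := by
    have : y * (a - d - 2 * c * x) = 0 := by linear_combination him
    rcases mul_eq_zero.mp this with h0 | h0
    · exact absurd h0 hy.ne'
    · linarith
  have hb' : b = x * (c * x + d) - y * (c * y) - a * x := by linarith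
  have h4 : (a + d) ^ 2 = 4 - 4 * c ^ 2 * y ^ 2 := by
    have : (a + d) ^ 2 = (a - d) ^ 2 + 4 * (1 + b * c) := by linear_combination 4 * hdet
    rw [this, hb', h3]
    have had : a = d + 2 * c * x := by linarith
    rw [had]
    ring
  by_cases hc0 : γ 1 0 = 0
  · left
    have hc0' : c = 0 := by rw [hc, hc0]; simp
    have had : a = d := by rw [hc0'] at h3; linarith
    have hb0 : b = 0 := by rw [hb', hc0', had]; ring
    refine ⟨hc0, ?_, ?_⟩
    · have : ((γ 0 1 : ℤ) : ℝ) = 0 := by simpa [hb] using hb0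
      exact_mod_cast this
    · have : ((γ 0 0 : ℤ) : ℝ) = ((γ 1 1 : ℤ) : ℝ) := by simpa [ha, hd] using had
      exact_mod_cast this
  · right
    have hc0' : c ≠ 0 := by
      rw [hc]
      simpa using hc0
    have h5 : (a + d) ^ 2 < 2 ^ 2 := by
      rw [h4]
      have : 0 < c ^ 2 * y ^ 2 := by positivity
      linarith
    have h6 : |a + d| < 2 := abs_lt_of_sq_lt_sq h5 (by norm_num)
    have h7 : ((|γ 0 0 + γ 1 1| : ℤ) : ℝ) < 2 := by
      rw [Int.cast_abs, Int.cast_add]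
      simpa [ha, hd] using h6
    have h8 : |γ 0 0 + γ 1 1| < 2 := by exact_mod_cast h7
    omega

theorem key4 : ∀ t d : ZMod 4, (t = 0 ∨ t = 1 ∨ t = -1) → (t - d) * d ≠ 1 := by decide

theorem key9 : ∀ t d : ZMod 9, (t = 0 ∨ t = 1 ∨ t = -1) → (t - d) * d ≠ 1 := by decide

/-- `Γ₀(M²)` has no elliptic elements if `2 ∣ M` or `3 ∣ M`. -/
theorem eq_one_or_neg_one_of_fix {M : ℕ} (h23 : 2 ∣ M ∨ 3 ∣ M) {γ : SL(2, ℤ)}
    (hγ : γ ∈ Gamma0 (M ^ 2)) {τ : ℍ} (h : γ • τ = τ) : γ = 1 ∨ γ = -1 := by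
  have hdet := γ.det_coe
  rw [Matrix.det_fin_two] at hdet
  rcases fix_cases γ τ h with ⟨hc, hb, had⟩ | htr
  · rw [hc, hb, had] at hdet
    have h1 : γ 1 1 * γ 1 1 = 1 := by linarith
    rcases Int.eq_one_or_neg_one_of_mul_eq_one h1 with h2 | h2
    · left
      ext i j
      fin_cases i <;> fin_cases j <;> simp [hc, hb, had, h2]
    · right
      ext i j
      fin_cases i <;> fin_cases j <;> simp [hc, hb, had, h2]
  · exfalso
    rw [Gamma0_mem, ZMod.intCast_zmod_eq_zero_iff_dvd] at hγ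
    have ht : γ 0 0 + γ 1 1 = 0 ∨ γ 0 0 + γ 1 1 = 1 ∨ γ 0 0 + γ 1 1 = -1 := by
      rw [abs_le] at htr
      omega
    have hgen : ∀ n : ℕ, (n : ℤ) ∣ γ 1 0 →
        (((γ 0 0 + γ 1 1 : ℤ) : ZMod n) - ((γ 1 1 : ℤ) : ZMod n)) * ((γ 1 1 : ℤ) : ZMod n) = 1 := by
      intro n hn
      have h0 : ((γ 1 0 : ℤ) : ZMod n) = 0 := (ZMod.intCast_zmod_eq_zero_iff_dvd _ _).mpr hn
      have h1 := congrArg (fun z : ℤ => (z : ZMod n)) hdet
      simp only [Int.cast_sub, Int.cast_mul, Int.cast_one, h0, mul_zero, sub_zero] at h1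
      rw [Int.cast_add, add_sub_cancel_right]
      exact h1
    have htc : ∀ n : ℕ, ((γ 0 0 + γ 1 1 : ℤ) : ZMod n) = 0 ∨ ((γ 0 0 + γ 1 1 : ℤ) : ZMod n) = 1 ∨
        ((γ 0 0 + γ 1 1 : ℤ) : ZMod n) = -1 := by
      intro n
      rcases ht with h | h | h <;> rw [h] <;> simp
    rcases h23 with h2 | h3
    · have h4 : ((4 : ℕ) : ℤ) ∣ γ 1 0 := by
        refine dvd_trans ?_ hγ
        obtain ⟨m, rfl⟩ := h2
        exact ⟨(m : ℤ) ^ 2, by push_cast; ring⟩
      exact key4 _ _ (htc 4) (hgen 4 h4)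
    · have h9 : ((9 : ℕ) : ℤ) ∣ γ 1 0 := by
        refine dvd_trans ?_ hγ
        obtain ⟨m, rfl⟩ := h3
        exact ⟨(m : ℤ) ^ 2, by push_cast; ring⟩
      exact key9 _ _ (htc 9) (hgen 9 h9)

/-- the parabolic elements of `Γ₀(M²)` lie in `GY M`. -/
theorem mem_GY_of_parabolic {M : ℕ} {γ g : SL(2, ℤ)} {n : ℕ} (hγ : γ ∈ Gamma0 (M ^ 2))
    (h : γ = g⁻¹ * ModularGroup.T⁻¹ ^ n * g) : γ ∈ GY M := by
  refine ⟨hγ, Or.inl ?_⟩
  have hT : ((ModularGroup.T⁻¹ ^ n : SL(2, ℤ)) : Matrix (Fin 2) (Fin 2) ℤ) =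
      !![1, -(n : ℤ); 0, 1] := by
    rw [inv_pow, ← zpow_natCast, ← zpow_neg, ModularGroup.coe_T_zpow]
  have hdet := g.det_coe
  rw [Matrix.det_fin_two] at hdet
  have h10 : γ 1 0 = n * g 1 0 ^ 2 := by
    rw [h]
    simp only [Matrix.SpecialLinearGroup.coe_mul, hT, Matrix.SpecialLinearGroup.coe_inv,
      Matrix.adjugate_fin_two, Matrix.mul_apply, Fin.sum_univ_two, Matrix.of_apply,
      Matrix.cons_val_zero, Matrix.cons_val_one, Matrix.cons_val', Matrix.cons_val_fin_one]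
    ring
  have h11 : γ 1 1 = 1 + n * g 1 0 * g 1 1 := by
    rw [h]
    simp only [Matrix.SpecialLinearGroup.coe_mul, hT, Matrix.SpecialLinearGroup.coe_inv,
      Matrix.adjugate_fin_two, Matrix.mul_apply, Fin.sum_univ_two, Matrix.of_apply,
      Matrix.cons_val_zero, Matrix.cons_val_one, Matrix.cons_val', Matrix.cons_val_fin_one]
    linear_combination hdet
  rw [Gamma0_mem, ZMod.intCast_zmod_eq_zero_iff_dvd, h10] at hγ
  have h2 : ((M : ℤ)) ^ 2 ∣ (n * g 1 0 * g 1 1) ^ 2 := by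
    have : ((n : ℤ) * g 1 0 * g 1 1) ^ 2 = (n * g 1 0 ^ 2) * (n * g 1 1 ^ 2) := by ring
    rw [this]
    exact Dvd.dvd.mul_right (by exact_mod_cast hγ) _
  have h3 : (M : ℤ) ∣ n * g 1 0 * g 1 1 := (Int.pow_dvd_pow_iff (by norm_num)).mp h2
  rw [h11, Int.cast_add, Int.cast_one, (ZMod.intCast_zmod_eq_zero_iff_dvd _ _).mpr h3, add_zero]

end Fermat.Agent.S48.ModL
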